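import Mathlib
import Fermat.Prelude.Def_FLTPrelim_Ramification

/-!
# Inertia / decomposition group facts for valuation subrings (squad S05/S12, warmups W1 + W2)
-/

set_option autoImplicit false

namespace Fermat.Agent.S05.Sq12

open ValuationSubring
open scoped Pointwise

section Decomp

variable {K L : Type*} [Field K] [Field L] [Algebra K L]

theorem smul_eq_of_mem_decomp (A : ValuationSubring L) {σ : L ≃ₐ[K] L}
    (hσ : σ ∈ A.decompositionSubgroup K) : σ • A = A := hσ

theorem apply_mem_of_mem_decomp (A : ValuationSubring L) {σ : L ≃ₐ[K] L}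
    (hσ : σ ∈ A.decompositionSubgroup K) {x : L} (hx : x ∈ A) : σ x ∈ A := by
  have h : σ • x ∈ σ • A := ValuationSubring.smul_mem_pointwise_smul σ x A hx
  rw [smul_eq_of_mem_decomp A hσ] at h
  exact h

theorem apply_mem_iff_of_mem_decomp (A : ValuationSubring L) {σ : L ≃ₐ[K] L}
    (hσ : σ ∈ A.decompositionSubgroup K) (x : L) : σ x ∈ A ↔ x ∈ A := by
  constructor
  · intro h
    have hinv : σ⁻¹ ∈ A.decompositionSubgroup K := inv_mem hσ
    have := apply_mem_of_mem_decomp A hinv h
    simpa using this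
  · exact apply_mem_of_mem_decomp A hσ

theorem valuation_le_of_mem_decomp (A : ValuationSubring L) {σ : L ≃ₐ[K] L}
    (hσ : σ ∈ A.decompositionSubgroup K) {x y : L}
    (h : A.valuation x ≤ A.valuation y) : A.valuation (σ x) ≤ A.valuation (σ y) := by
  rw [ValuationSubring.valuation_le_iff] at h ⊢
  obtain ⟨a, ha⟩ := h
  refine ⟨⟨σ a, apply_mem_of_mem_decomp A hσ a.2⟩, ?_⟩
  simp only
  rw [← map_mul, ha]

theorem valuation_le_iff_of_mem_decomp (A : ValuationSubring L) {σ : L ≃ₐ[K] L}
    (hσ : σ ∈ A.decompositionSubgroup K) (x y : L) :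
    A.valuation (σ x) ≤ A.valuation (σ y) ↔ A.valuation x ≤ A.valuation y := by
  constructor
  · intro h
    have hinv : σ⁻¹ ∈ A.decompositionSubgroup K := inv_mem hσ
    have := valuation_le_of_mem_decomp A hinv h
    simpa using this
  · exact valuation_le_of_mem_decomp A hσ

theorem valuation_lt_iff_of_mem_decomp (A : ValuationSubring L) {σ : L ≃ₐ[K] L}
    (hσ : σ ∈ A.decompositionSubgroup K) (x y : L) :
    A.valuation (σ x) < A.valuation (σ y) ↔ A.valuation x < A.valuation y := by
  rw [← not_le, ← not_le, valuation_le_iff_of_mem_decomp A hσ]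

/-- Some positive power of `σ` fixes a given algebraic element. -/
theorem exists_pow_apply_eq_self {σ : L ≃ₐ[K] L} {x : L} (hx : IsAlgebraic K x) :
    ∃ n : ℕ, 0 < n ∧ (σ ^ n) x = x := by
  classical
  have hint : IsIntegral K x := hx.isIntegral
  have hfin : ((minpoly K x).rootSet L).Finite := Polynomial.rootSet_finite _ _
  have hmem : ∀ k : ℕ, (σ ^ k) x ∈ (minpoly K x).rootSet L := by
    intro k
    rw [Polynomial.mem_rootSet]
    refine ⟨minpoly.ne_zero hint, ?_⟩
    have : Polynomial.aeval ((σ ^ k) x) (minpoly K x) = (σ ^ k) (Polynomial.aeval x (minpoly K x)) := by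
      exact Polynomial.aeval_algHom_apply ((σ ^ k : L ≃ₐ[K] L) : L →ₐ[K] L) x (minpoly K x)
    rw [this, minpoly.aeval, map_zero]
  obtain ⟨i, j, hij, heq⟩ : ∃ i j : ℕ, i < j ∧ (σ ^ i) x = (σ ^ j) x := by
    by_contra hcon
    push Not at hcon
    have hinj : Function.Injective (fun k : ℕ => (⟨(σ ^ k) x, hmem k⟩ : (minpoly K x).rootSet L)) := by
      intro a b hab
      simp only [Subtype.mk.injEq] at hab
      rcases lt_trichotomy a b with h | h | h
      · exact absurd hab (hcon a b h)
      · exact h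
      · exact absurd hab.symm (hcon b a h)
    have : Finite ((minpoly K x).rootSet L) := hfin.to_subtype
    exact not_injective_infinite_finite _ hinj
  refine ⟨j - i, Nat.sub_pos_of_lt hij, ?_⟩
  have hpow : σ ^ j = σ ^ i * σ ^ (j - i) := by
    rw [← pow_add]; congr 1; omega
  rw [hpow, AlgEquiv.mul_apply] at heq
  exact ((σ ^ i).injective heq).symm

theorem valuation_apply_eq_of_mem_decomp (A : ValuationSubring L) {σ : L ≃ₐ[K] L}
    (hσ : σ ∈ A.decompositionSubgroup K) {x : L} (hx : IsAlgebraic K x) :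
    A.valuation (σ x) = A.valuation x := by
  obtain ⟨n, hn, hfix⟩ := exists_pow_apply_eq_self (σ := σ) hx
  -- monotone chains
  have hup : A.valuation x < A.valuation (σ x) →
      ∀ k : ℕ, A.valuation x < A.valuation ((σ ^ (k + 1)) x) := by
    intro h k
    induction k with
    | zero => simpa using h
    | succ k ih =>
      have h1 : A.valuation (σ x) < A.valuation (σ ((σ ^ (k + 1)) x)) :=
        (valuation_lt_iff_of_mem_decomp A hσ _ _).2 ih
      have h2 : σ ((σ ^ (k + 1)) x) = (σ ^ (k + 1 + 1)) x := by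
        rw [pow_succ' σ (k + 1), AlgEquiv.mul_apply]
      rw [h2] at h1
      exact lt_trans h h1
  have hdown : A.valuation (σ x) < A.valuation x →
      ∀ k : ℕ, A.valuation ((σ ^ (k + 1)) x) < A.valuation x := by
    intro h k
    induction k with
    | zero => simpa using h
    | succ k ih =>
      have h1 : A.valuation (σ ((σ ^ (k + 1)) x)) < A.valuation (σ x) :=
        (valuation_lt_iff_of_mem_decomp A hσ _ _).2 ih
      have h2 : σ ((σ ^ (k + 1)) x) = (σ ^ (k + 1 + 1)) x := by
        rw [pow_succ' σ (k + 1), AlgEquiv.mul_apply]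
      rw [h2] at h1
      exact lt_trans h1 h
  obtain ⟨m, rfl⟩ : ∃ m, n = m + 1 := ⟨n - 1, by omega⟩
  rcases lt_trichotomy (A.valuation (σ x)) (A.valuation x) with h | h | h
  · have := hdown h m
    rw [hfix] at this
    exact absurd this (lt_irrefl _)
  · exact h
  · have := hup h m
    rw [hfix] at this
    exact absurd this (lt_irrefl _)

theorem mem_decomp_of_mem_inertiaIn (A : ValuationSubring L) {σ : L ≃ₐ[K] L}
    (hσ : σ ∈ A.inertiaSubgroupIn K) : σ ∈ A.decompositionSubgroup K := by
  obtain ⟨τ, _, rfl⟩ := hσ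
  exact τ.2

theorem sub_mem_nonunits_of_mem_inertiaIn (A : ValuationSubring L) {σ : L ≃ₐ[K] L}
    (hσ : σ ∈ A.inertiaSubgroupIn K) {x : L} (hx : x ∈ A) : σ x - x ∈ A.nonunits := by
  obtain ⟨τ, hτ, rfl⟩ := hσ
  have hτ' : MulSemiringAction.toRingAut (A.decompositionSubgroup K)
      (IsLocalRing.ResidueField A) τ = 1 := hτ
  have h1 : τ • (IsLocalRing.residue A ⟨x, hx⟩) = IsLocalRing.residue A ⟨x, hx⟩ := by
    have := congrArg (fun f : RingAut (IsLocalRing.ResidueField A) =>
      f (IsLocalRing.residue A ⟨x, hx⟩)) hτ'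
    simpa using this
  rw [← IsLocalRing.ResidueField.residue_smul] at h1
  have h2 : IsLocalRing.residue A (τ • (⟨x, hx⟩ : A) - ⟨x, hx⟩) = 0 := by
    rw [map_sub, h1, sub_self]
  have h3 : (τ • (⟨x, hx⟩ : A) - ⟨x, hx⟩) ∈ IsLocalRing.maximalIdeal A :=
    (IsLocalRing.residue_eq_zero_iff _).1 h2
  have h4 := (ValuationSubring.coe_mem_nonunits_iff (A := A)).2 h3
  exact h4

end Decomp


section Integers

variable {L : Type*} [Field L] (A : ValuationSubring L)

theorem intCast_mem_vs (n : ℤ) : (n : L) ∈ A := _root_.intCast_mem A n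

theorem natCast_mem_vs (n : ℕ) : (n : L) ∈ A := _root_.natCast_mem A n

theorem valuation_intCast_le_one (n : ℤ) : A.valuation (n : L) ≤ 1 :=
  (A.valuation_le_one_iff _).2 (intCast_mem_vs A n)

theorem valuation_natCast_le_one (n : ℕ) : A.valuation (n : L) ≤ 1 :=
  (A.valuation_le_one_iff _).2 (natCast_mem_vs A n)

theorem valuation_intCast_lt_one_of_dvd {q : ℕ} (hq : A.LiesOverPrime q) {n : ℤ}
    (h : (q : ℤ) ∣ n) : A.valuation (n : L) < 1 := by
  obtain ⟨m, rfl⟩ := h
  have hq' : A.valuation (q : L) < 1 := (A.mem_nonunits_iff).1 hq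
  push_cast
  rw [map_mul]
  calc A.valuation (q : L) * A.valuation (m : L)
      ≤ A.valuation (q : L) * 1 := by
        gcongr
        exact valuation_intCast_le_one A m
    _ = A.valuation (q : L) := mul_one _
    _ < 1 := hq'

theorem valuation_intCast_eq_one_of_not_dvd {q : ℕ} (hqp : q.Prime) (hq : A.LiesOverPrime q)
    {n : ℤ} (h : ¬ (q : ℤ) ∣ n) : A.valuation (n : L) = 1 := by
  have hq' : A.valuation (q : L) < 1 := (A.mem_nonunits_iff).1 hq
  have hcop : IsCoprime (q : ℤ) n := by
    have hprime : Prime (q : ℤ) := Nat.prime_iff_prime_int.1 hqp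
    exact (Prime.coprime_iff_not_dvd hprime).2 h
  obtain ⟨u, v, huv⟩ := hcop
  have hL : (u : L) * (q : L) + (v : L) * (n : L) = 1 := by
    have := congrArg (fun z : ℤ => (z : L)) huv
    push_cast at this
    exact this
  rcases lt_or_eq_of_le (valuation_intCast_le_one A n) with hlt | heq
  · exfalso
    have h1 : A.valuation ((u : L) * (q : L)) < 1 := by
      rw [map_mul]
      calc A.valuation (u : L) * A.valuation (q : L)
          ≤ 1 * A.valuation (q : L) := by
            gcongr
            exact valuation_intCast_le_one A u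
        _ = A.valuation (q : L) := one_mul _
        _ < 1 := hq'
    have h2 : A.valuation ((v : L) * (n : L)) < 1 := by
      rw [map_mul]
      calc A.valuation (v : L) * A.valuation (n : L)
          ≤ 1 * A.valuation (n : L) := by
            gcongr
            exact valuation_intCast_le_one A v
        _ = A.valuation (n : L) := one_mul _
        _ < 1 := hlt
    have h3 : A.valuation ((u : L) * (q : L) + (v : L) * (n : L)) < 1 :=
      lt_of_le_of_lt (A.valuation.map_add _ _) (max_lt h1 h2)
    rw [hL, map_one] at h3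
    exact lt_irrefl _ h3
  · exact heq

theorem valuation_natCast_eq_one_of_not_dvd {q : ℕ} (hqp : q.Prime) (hq : A.LiesOverPrime q)
    {n : ℕ} (h : ¬ q ∣ n) : A.valuation (n : L) = 1 := by
  have := valuation_intCast_eq_one_of_not_dvd A hqp hq (n := (n : ℤ))
    (by rwa [Int.natCast_dvd_natCast])
  simpa using this

theorem valuation_prime_eq_one {q p : ℕ} (hqp : q.Prime) (hq : A.LiesOverPrime q)
    (hp : p.Prime) (hne : q ≠ p) : A.valuation (p : L) = 1 :=
  valuation_natCast_eq_one_of_not_dvd A hqp hq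
    (fun h => hne ((Nat.prime_dvd_prime_iff_eq hqp hp).1 h))

theorem valuation_two_eq_one {q : ℕ} (hqp : q.Prime) (hq : A.LiesOverPrime q)
    (hne : q ≠ 2) : A.valuation (2 : L) = 1 := by
  have := valuation_prime_eq_one A hqp hq Nat.prime_two hne
  simpa using this

end Integers

section Rat

/-- every element of `AlgebraicClosure ℚ` is algebraic over `ℚ` for the algebra structure
used by the Prelude (`DivisionRing.toRatAlgebra`). -/
theorem isAlgebraic_algebraicClosure_rat (x : AlgebraicClosure ℚ) : IsAlgebraic ℚ x := by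
  have h : (AlgebraicClosure.instAlgebra ℚ : Algebra ℚ (AlgebraicClosure ℚ)) =
      DivisionRing.toRatAlgebra := Subsingleton.elim _ _
  have hx : @IsAlgebraic ℚ (AlgebraicClosure ℚ) _ _ (AlgebraicClosure.instAlgebra ℚ) x :=
    @Algebra.IsAlgebraic.isAlgebraic ℚ (AlgebraicClosure ℚ) _ _ (AlgebraicClosure.instAlgebra ℚ)
      (AlgebraicClosure.isAlgebraic ℚ) x
  rw [h] at hx
  exact hx

variable (A : ValuationSubring (AlgebraicClosure ℚ))
  {σ : AlgebraicClosure ℚ ≃ₐ[ℚ] AlgebraicClosure ℚ}

theorem valuation_apply_eq_of_mem_inertiaIn (hσ : σ ∈ A.inertiaSubgroupIn ℚ)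
    (x : AlgebraicClosure ℚ) : A.valuation (σ x) = A.valuation x :=
  valuation_apply_eq_of_mem_decomp A (mem_decomp_of_mem_inertiaIn A hσ)
    (isAlgebraic_algebraicClosure_rat x)

theorem valuation_sub_lt_one_of_mem_inertiaIn (hσ : σ ∈ A.inertiaSubgroupIn ℚ)
    {x : AlgebraicClosure ℚ} (hx : A.valuation x ≤ 1) : A.valuation (σ x - x) < 1 :=
  (A.mem_nonunits_iff).1
    (sub_mem_nonunits_of_mem_inertiaIn A hσ ((A.valuation_le_one_iff x).1 hx))

theorem apply_ratCast (r : ℚ) : σ (r : AlgebraicClosure ℚ) = r := map_ratCast σ r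

theorem apply_intCast (n : ℤ) : σ (n : AlgebraicClosure ℚ) = n := map_intCast σ n

theorem apply_natCast (n : ℕ) : σ (n : AlgebraicClosure ℚ) = n := map_natCast σ n

end Rat

end Fermat.Agent.S05.Sq12
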